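import Mathlib

/-!
# GR-D (LC): an abstract criterion for membership in an intermediate field

If the `k`-embeddings of `L` are exhausted by a family `Φ x`, `x : X`, and `π : X → Y` is such that
the restriction of `Φ x` to `F` determines `π x`, then every `z : L` whose conjugates `Φ x z` only
depend on `π x` lies in `F`.
-/

set_option autoImplicit false

namespace Fermat.Agent.GR.D.LC

open IntermediateField Polynomial

theorem mem_of_embeddings {k L Ω X Y : Type*} [Field k] [Field L] [Field Ω] [Algebra k L]
    [Algebra k Ω] [IsAlgClosed Ω] [FiniteDimensional k L] [CharZero k]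
    (Φ : X → (L →ₐ[k] Ω)) (hΦ : Function.Injective Φ)
    (hcard : Module.finrank k L ≤ Nat.card X)
    (F : IntermediateField k L) (π : X → Y)
    (hsep : ∀ x x', (∀ f ∈ F, Φ x f = Φ x' f) → π x = π x')
    (z : L) (hz : ∀ x x', π x = π x' → Φ x z = Φ x' z) : z ∈ F := by
  classical
  have hbij : Function.Bijective Φ := by
    apply hΦ.bijective_of_nat_card_le
    exact (card_algHom_le_finrank k L Ω).trans hcard
  have hpos : 0 < Nat.card X := lt_of_lt_of_le Module.finrank_pos hcard
  obtain ⟨x0⟩ : Nonempty X := (Nat.card_pos_iff.mp hpos).1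
  let _ : Algebra F Ω := ((Φ x0).toRingHom.comp (algebraMap F L)).toAlgebra
  have : IsScalarTower k F Ω := IsScalarTower.of_algebraMap_eq fun c => by
    show algebraMap k Ω c = Φ x0 (algebraMap F L (algebraMap k F c))
    rw [← IsScalarTower.algebraMap_apply k F L, AlgHom.commutes]
  have hrange := Algebra.IsAlgebraic.range_eval_eq_rootSet_minpoly (F := F) (K := L) Ω z
  have hsub : (minpoly F z).rootSet Ω ⊆ {Φ x0 z} := by
    rw [← hrange]
    rintro _ ⟨ψ, rfl⟩
    obtain ⟨x, hx⟩ := hbij.2 (ψ.restrictScalars k)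
    have h1 : ∀ f, Φ x f = ψ f := fun f => by rw [hx]; rfl
    have h2 : π x = π x0 := by
      apply hsep
      intro f hf
      rw [h1]
      exact ψ.commutes ⟨f, hf⟩
    show ψ z = Φ x0 z
    rw [← h1, hz x x0 h2]
  have hint : IsIntegral F z := Algebra.IsIntegral.isIntegral z
  have hs : (minpoly F z).Separable := (Algebra.IsSeparable.isSeparable F z)
  have hc := card_rootSet_eq_natDegree (K := Ω) hs (IsAlgClosed.splits _)
  have hle : Fintype.card ((minpoly F z).rootSet Ω) ≤ 1 := by
    rw [Fintype.card_le_one_iff]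
    rintro ⟨a, ha⟩ ⟨b, hb⟩
    have := hsub ha
    have := hsub hb
    simp_all
  have hdeg : (minpoly F z).natDegree = 1 :=
    le_antisymm (hc ▸ hle) (minpoly.natDegree_pos hint)
  obtain ⟨y, hy⟩ := (minpoly.natDegree_eq_one_iff).mp hdeg
  rw [← hy]
  exact y.2

end Fermat.Agent.GR.D.LC
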