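import Mathlib

/-!
# GR-D (LC): `Γ₀(N)` is generated by `Γ₀(N r)` and its conjugates (`r` prime, `r ∤ N`)
-/

set_option autoImplicit false

namespace Fermat.Agent.GR.D.LC

open scoped MatrixGroups
open Matrix ModularGroup CongruenceSubgroup

/-- The lower unipotent matrix `(1 0; N 1)`. -/
def lowN (N : ℕ) : SL(2, ℤ) := ⟨!![1, 0; (N : ℤ), 1], by simp [Matrix.det_fin_two_of]⟩

theorem lowN_mem (N : ℕ) : lowN N ∈ Gamma0 N := by
  rw [Gamma0_mem]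
  simp [lowN]

theorem T_zpow_mem (M : ℕ) (k : ℤ) : (T ^ k : SL(2, ℤ)) ∈ Gamma0 M := by
  rw [Gamma0_mem, ModularGroup.coe_T_zpow]
  simp

theorem entry_conj (N : ℕ) (k e : ℤ) (g : SL(2, ℤ)) :
    (lowN N * T ^ k * (lowN N)⁻¹ * T ^ e * g) 1 0
      = g 1 0 + N * k * (g 1 0 - N * (g 0 0 + e * g 1 0)) := by
  simp only [Matrix.SpecialLinearGroup.coe_mul, ModularGroup.coe_T_zpow,
    Matrix.SpecialLinearGroup.SL2_inv_expl, lowN, Matrix.mul_apply, Fin.sum_univ_two]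
  simp
  ring

theorem exists_conj_mul_mem (N r : ℕ) (hr : r.Prime) (hrN : ¬ r ∣ N) (g : SL(2, ℤ))
    (hg : g ∈ Gamma0 N) :
    ∃ k e : ℤ, lowN N * T ^ k * (lowN N)⁻¹ * T ^ e * g ∈ Gamma0 (N * r) := by
  rw [Gamma0_mem, ZMod.intCast_zmod_eq_zero_iff_dvd] at hg
  obtain ⟨c', hc'⟩ := hg
  have hdet : g 0 0 * g 1 1 - g 0 1 * g 1 0 = 1 := by
    have := g.det_coe
    rw [Matrix.det_fin_two] at this
    exact this
  have hrp : Prime (r : ℤ) := Nat.prime_iff_prime_int.mp hr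
  have hrN' : ¬ (r : ℤ) ∣ (N : ℤ) := fun h => hrN (Int.natCast_dvd_natCast.mp h)
  -- it suffices to find `k, e` with `r ∣ c' + k * u`
  have key : ∀ e : ℤ, ¬ (r : ℤ) ∣ (N : ℤ) * (c' - (g 0 0 + e * g 1 0)) →
      ∃ k e : ℤ, lowN N * T ^ k * (lowN N)⁻¹ * T ^ e * g ∈ Gamma0 (N * r) := by
    intro e hu
    have hcop : IsCoprime ((N : ℤ) * (c' - (g 0 0 + e * g 1 0))) (r : ℤ) :=
      ((hrp.coprime_iff_not_dvd).mpr hu).symm
    obtain ⟨s, t, hst⟩ := hcop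
    refine ⟨-c' * s, e, ?_⟩
    rw [Gamma0_mem, ZMod.intCast_zmod_eq_zero_iff_dvd, entry_conj]
    refine ⟨c' * t, ?_⟩
    push_cast
    rw [hc'] at hst ⊢
    linear_combination (-(N : ℤ) * c') * hst
  by_cases h0 : (r : ℤ) ∣ (N : ℤ) * (c' - (g 0 0 + 0 * g 1 0))
  · by_cases h1 : (r : ℤ) ∣ (N : ℤ) * (c' - (g 0 0 + 1 * g 1 0))
    · exfalso
      have h2 : (r : ℤ) ∣ (N : ℤ) * g 1 0 := by
        have := dvd_sub h0 h1
        have e : (N : ℤ) * (c' - (g 0 0 + 0 * g 1 0)) - (N : ℤ) * (c' - (g 0 0 + 1 * g 1 0))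
            = (N : ℤ) * g 1 0 := by ring
        rwa [e] at this
      have h3 : (r : ℤ) ∣ g 1 0 := (hrp.dvd_or_dvd h2).resolve_left hrN'
      have h3' : (r : ℤ) ∣ c' := by
        rw [hc'] at h3
        exact (hrp.dvd_or_dvd h3).resolve_left hrN'
      have h4 : (r : ℤ) ∣ c' - (g 0 0 + 0 * g 1 0) := (hrp.dvd_or_dvd h0).resolve_left hrN'
      have h5 : (r : ℤ) ∣ g 0 0 := by
        have := dvd_sub h3' h4
        have e : c' - (c' - (g 0 0 + 0 * g 1 0)) = g 0 0 := by ring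
        rwa [e] at this
      have h6 : (r : ℤ) ∣ 1 := by
        rw [← hdet]
        exact dvd_sub (h5.mul_right _) (h3.mul_left _)
      exact hrp.not_isUnit (isUnit_of_dvd_one h6)
    · exact key 1 h1
  · exact key 0 h0

end Fermat.Agent.GR.D.LC
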