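import Fermat.Agent.S24.Conj
import Fermat.Agent.GR.D.LC.Group

/-!
# GR-D (LC): an `n`-th root on level `N r` of a function of level `N` is of level `N`

Analytic part: `A / B` is invariant under `Γ₀(N r)`, `(A / B) ^ n = C / E` is invariant under
`Γ₀(N)`; then `A / B` is invariant under `Γ₀(N)`.
-/

set_option autoImplicit false

namespace Fermat.Agent.GR.D.LC

open scoped MatrixGroups
open Fermat.Agent.S24 CongruenceSubgroup

theorem isDomain_Hol : IsDomain Hol := (taylorHom_injective UpperHalfPlane.I).isDomain _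

theorem constHol_injective : Function.Injective constHol := by
  intro a b h
  have := congrArg (fun f : Hol => (f : UpperHalfPlane → ℂ) UpperHalfPlane.I) h
  simpa using this

theorem exists_const_of_pow_eq {n : ℕ} (hn : 0 < n) {X Y : Hol} (h : X ^ n = Y ^ n) :
    ∃ ζ : ℂ, X = constHol ζ * Y := by
  have := isDomain_Hol
  have hω : IsPrimitiveRoot (constHol (Complex.exp (2 * Real.pi * Complex.I / n))) n :=
    (Complex.isPrimitiveRoot_exp n hn.ne').map_of_injective constHol_injective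
  have h1 := hω.pow_sub_pow_eq_prod_sub_mul X Y hn
  rw [h, sub_self] at h1
  obtain ⟨ξ, hξ, h2⟩ := Finset.prod_eq_zero_iff.mp h1.symm
  have hξ1 : ξ ^ n = 1 := ((Polynomial.mem_nthRootsFinset hn 1).mp hξ)
  have : NeZero n := ⟨hn.ne'⟩
  obtain ⟨i, -, hi⟩ := hω.eq_pow_of_pow_eq_one hξ1
  refine ⟨Complex.exp (2 * Real.pi * Complex.I / n) ^ i, ?_⟩
  rw [map_pow, hi]
  exact sub_eq_zero.mp h2

/-- `A ∘ γ / B ∘ γ = ζ A / B`. -/
def Rel (A B : Hol) (γ : SL(2, ℤ)) (ζ : ℂ) : Prop :=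
  compHom γ A * B = constHol ζ * (compHom γ B * A)

theorem compHom_ne_zero (γ : SL(2, ℤ)) {f : Hol} (hf : f ≠ 0) : compHom γ f ≠ 0 :=
  (map_ne_zero_iff _ (Conj.compHom_injective γ)).mpr hf

theorem Rel.mul {A B : Hol} (hB : B ≠ 0) {γ δ : SL(2, ℤ)} {ζ ξ : ℂ} (h1 : Rel A B γ ζ)
    (h2 : Rel A B δ ξ) : Rel A B (γ * δ) (ζ * ξ) := by
  have := isDomain_Hol
  unfold Rel at *
  have h3 := congrArg (compHom δ) h1
  rw [map_mul, map_mul, map_mul, ← compHom_mul, ← compHom_mul, compHom_constHol] at h3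
  apply mul_right_cancel₀ (compHom_ne_zero δ hB)
  rw [map_mul]
  linear_combination B * h3 + constHol ζ * compHom (γ * δ) B * h2

theorem Rel.unique {A B : Hol} (hA : A ≠ 0) (hB : B ≠ 0) {γ : SL(2, ℤ)} {ζ ξ : ℂ}
    (h1 : Rel A B γ ζ) (h2 : Rel A B γ ξ) : ζ = ξ := by
  have := isDomain_Hol
  unfold Rel at *
  apply constHol_injective
  exact mul_right_cancel₀ (mul_ne_zero (compHom_ne_zero γ hB) hA) (h1.symm.trans h2)

theorem rel_one_of_invariant {A B : Hol} {γ : SL(2, ℤ)} (hA : compHom γ A = A)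
    (hB : compHom γ B = B) : Rel A B γ 1 := by
  unfold Rel
  rw [hA, hB, map_one, one_mul, mul_comm]

theorem invariant_of_pow (N r n : ℕ) (hr : r.Prime) (hrN : ¬ r ∣ N) (hn : 0 < n)
    (A B C E : Hol) (hA : A ≠ 0) (hB : B ≠ 0) (hC : C ≠ 0) (hE : E ≠ 0)
    (hrel : A ^ n * E = B ^ n * C)
    (hAM : ∀ γ ∈ Gamma0 (N * r), compHom γ A = A) (hBM : ∀ γ ∈ Gamma0 (N * r), compHom γ B = B)
    (hCN : ∀ γ ∈ Gamma0 N, compHom γ C = C) (hEN : ∀ γ ∈ Gamma0 N, compHom γ E = E)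
    (g : SL(2, ℤ)) (hg : g ∈ Gamma0 N) : compHom g A * B = compHom g B * A := by
  have := isDomain_Hol
  have hex : ∀ γ ∈ Gamma0 N, ∃ ζ, Rel A B γ ζ := by
    intro γ hγ
    apply exists_const_of_pow_eq hn
    have h1 := congrArg (compHom γ) hrel
    rw [map_mul, map_mul, map_pow, map_pow, hCN γ hγ, hEN γ hγ] at h1
    apply mul_right_cancel₀ (mul_ne_zero hC hE)
    rw [mul_pow, mul_pow]
    linear_combination B ^ n * C * h1 - compHom γ B ^ n * C * hrel
  have hM : ∀ γ ∈ Gamma0 (N * r), Rel A B γ 1 := fun γ hγ =>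
    rel_one_of_invariant (hAM γ hγ) (hBM γ hγ)
  obtain ⟨k, e, hke⟩ := exists_conj_mul_mem N r hr hrN g hg
  obtain ⟨lam, hlam⟩ := hex _ (lowN_mem N)
  obtain ⟨lam', hlam'⟩ := hex _ (inv_mem (lowN_mem N))
  obtain ⟨ζ, hζ⟩ := hex g hg
  have h1 : lam * lam' = 1 := by
    have h2 := hlam.mul hB hlam'
    rw [mul_inv_cancel] at h2
    exact h2.unique hA hB (hM 1 (one_mem _))
  have h3 := ((((hlam.mul hB (hM _ (T_zpow_mem _ k))).mul hB hlam').mul hB
    (hM _ (T_zpow_mem _ e))).mul hB hζ).unique hA hB (hM _ hke)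
  have h4 : ζ = 1 := by
    rw [← h3]
    linear_combination (-ζ) * h1
  rw [h4] at hζ
  unfold Rel at hζ
  rwa [map_one, one_mul] at hζ

end Fermat.Agent.GR.D.LC
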