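import Fermat.Agent.S24.Degree
import Fermat.Agent.GR.D.LC.Field
import Fermat.Agent.GR.D.LC.Zeta

/-!
# GR-D (LC): level change `N → N r`, in the language of S24
-/

set_option autoImplicit false

namespace Fermat.Agent.GR.D.LC

open scoped MatrixGroups
open Fermat.Agent.S24 CongruenceSubgroup IntermediateField UpperHalfPlane

theorem divisorExpansions_mono {N M : ℕ} (h : N ∣ M) :
    ModularCurve.divisorExpansions N ⊆ ModularCurve.divisorExpansions M := by
  rintro x ⟨d, hd0, hd, rfl⟩
  exact ⟨d, hd0, hd.trans h, rfl⟩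

theorem A1_mono {N M : ℕ} (h : N ∣ M) : A1 N ≤ A1 M :=
  Algebra.adjoin_mono (Set.image_mono (divisorExpansions_mono h))

theorem bar_mono {N M : ℕ} (h : N ∣ M) :
    ModularCurve.modularFunctionFieldBar N ≤ ModularCurve.modularFunctionFieldBar M := by
  rw [modularFunctionFieldBar_eq_adjoin, modularFunctionFieldBar_eq_adjoin]
  exact IntermediateField.adjoin.mono _ _ _ (Set.image_mono (divisorExpansions_mono h))

/-- The inclusion `A1 N → A1 M`. -/
noncomputable def inclA {N M : ℕ} (h : N ∣ M) (a : A1 N) : A1 M := ⟨a.1, A1_mono h a.2⟩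

theorem coe_inclA {N M : ℕ} (h : N ∣ M) (a : A1 N) :
    ((inclA h a : A1 M) : LaurentSeries Kbar) = a := Subtype.coe_mk _ _

theorem evA_inclA {N M : ℕ} [NeZero N] [NeZero M] (h : N ∣ M) (a : A1 N) :
    evA M (inclA h a) = evA N a := by
  apply Subtype.ext
  apply Ev.evA_eq_of_laurentHom M (inclA h a) _ (evA_mem N a)
  rw [laurentHom_evA N a, coe_inclA]

theorem coe_incl (N : ℕ) (a : A1 N) : ((incl N a : FF N) : LaurentSeries Kbar) = a :=
  Subalgebra.coe_inclusion (A1_le N) a

theorem coe_jF (N : ℕ) :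
    ((jF N : FF N) : LaurentSeries Kbar) = ModularCurve.coeffEmb Kbar ModularCurve.jq := by
  rw [jF, coe_incl]
  exact Subtype.coe_mk _ _

theorem coe_mem_bar (N : ℕ) (a : A1 N) :
    (a : LaurentSeries Kbar) ∈ ModularCurve.modularFunctionFieldBar N := A1_le N a.2

theorem exists_family {Ω : Type} [Field Ω] (tay : Hol →+* Ω) (htay : Function.Injective tay)
    (M : ℕ) [NeZero M] :
    ∃ φ : Cosets M → FF M →+* Ω, ∀ x a, φ x (incl M a) = tay (conjHom M x a) := by
  let _ : Algebra (A1 M) (FF M) := (incl M).toRingHom.toAlgebra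
  have : FaithfulSMul (A1 M) (FF M) :=
    (faithfulSMul_iff_algebraMap_injective _ _).mpr (incl_injective M)
  have : IsFractionRing (A1 M) (FF M) := IsFractionRing.of_field _ _ (fun z => by
    obtain ⟨a, b, -, h⟩ := exists_frac M z
    exact ⟨a, b, h⟩)
  have hinj : ∀ x : Cosets M, Function.Injective (tay.comp (conjHom M x)) :=
    fun x => htay.comp (conjHom_injective M x)
  exact ⟨fun x => IsFractionRing.lift (hinj x), fun x a => IsFractionRing.lift_algebraMap (hinj x) a⟩

set_option synthInstance.maxHeartbeats 400000 in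
/-- The criterion: an element of the function field of level `M` all of whose conjugates only
depend on the coset modulo `Γ₀(N)` has level `N`. -/
theorem mem_bar_of_invariant_aux {Ω : Type} [Field Ω] [IsAlgClosed Ω] (tay : Hol →+* Ω)
    (tay_injective : Function.Injective tay)
    {N M : ℕ} [NeZero N] [NeZero M] (h : N ∣ M) (a b : A1 M) (hb : b ≠ 0)
    (hinv : ∀ g ∈ Gamma0 N, compHom g (evA M a) * evA M b = compHom g (evA M b) * evA M a) :
    (a : LaurentSeries Kbar) / b ∈ ModularCurve.modularFunctionFieldBar N := by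
  obtain ⟨φ, hφ⟩ := exists_family tay tay_injective M
  have : CharZero Kbar⟮jF M⟯ :=
    charZero_of_injective_algebraMap (algebraMap Kbar Kbar⟮jF M⟯).injective
  let x0 : Cosets M := QuotientGroup.mk 1
  let _ : Algebra Kbar⟮jF M⟯ (Ω) :=
    ((φ x0).comp (algebraMap Kbar⟮jF M⟯ (FF M))).toAlgebra
  have hconj : ∀ x (r : Polynomial Kbar), conjHom M x (Polynomial.aeval (jA M) r) =
      Polynomial.eval₂ (constHol.comp iotaC) jHol r := by
    intro x r
    rw [Polynomial.aeval_def, Polynomial.hom_eval₂, conjHom_jA]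
    congr 1
    ext c : 1
    exact conjHom_algebraMap M x c
  have hpoly : ∀ x (r : Polynomial Kbar), φ x (Polynomial.aeval (jF M) r) =
      φ x0 (Polynomial.aeval (jF M) r) := by
    intro x r
    rw [jF, Polynomial.aeval_algHom_apply, hφ, hφ, hconj, hconj]
  have hagree : ∀ x (z : Kbar⟮jF M⟯), φ x (algebraMap _ _ z) = φ x0 (algebraMap _ _ z) := by
    intro x z
    obtain ⟨r, s, hz⟩ := (mem_adjoin_simple_iff Kbar (z : FF M)).1 z.2
    have : algebraMap Kbar⟮jF M⟯ (FF M) z = Polynomial.aeval (jF M) r / Polynomial.aeval (jF M) s :=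
      hz
    rw [this, map_div₀, map_div₀, hpoly, hpoly x s]
  let Φ : Cosets M → (FF M →ₐ[Kbar⟮jF M⟯] Ω) := fun x =>
    { φ x with commutes' := fun z => hagree x z }
  have hΦ : ∀ x f, Φ x f = φ x f := fun _ _ => rfl
  have hΦinj : Function.Injective Φ := by
    intro x y hxy
    apply conjHom_index_injective M
    ext a : 1
    apply tay_injective
    have h1 : φ x (incl M a) = φ y (incl M a) := congrArg (fun f => f (incl M a)) hxy
    rw [hφ, hφ] at h1
    exact h1
  -- the intermediate field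
  let F0 : IntermediateField Kbar (FF M) :=
    (ModularCurve.modularFunctionFieldBar N).comap (ModularCurve.modularFunctionFieldBar M).val
  have hF0 : ∀ f : FF M, f ∈ F0 ↔ (f : LaurentSeries Kbar) ∈ ModularCurve.modularFunctionFieldBar N :=
    fun _ => Iff.rfl
  have hle : Kbar⟮jF M⟯ ≤ F0 := by
    rw [adjoin_simple_le_iff, hF0, coe_jF, ← coe_jF N]
    exact (jF N).2
  let π : Cosets M → Cosets N := fun x => QuotientGroup.mk x.out
  have hlev : ∀ (x : Cosets M) (c : A1 N), φ x (incl M (inclA h c)) = tay (conjHom N (π x) c) := by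
    intro x c
    rw [hφ, conjHom_mk]
    show tay (compHom _ (evA M _)) = _
    rw [evA_inclA]
  have key := mem_of_embeddings Φ hΦinj (finrank_FF_le M) (extendScalars hle) π ?_
    (incl M a / incl M b) ?_
  · rw [mem_extendScalars, hF0, IntermediateField.coe_div, coe_incl, coe_incl] at key
    exact key
  · intro x x' hxx'
    apply conjHom_index_injective N
    ext c : 1
    apply tay_injective
    rw [← hlev, ← hlev]
    apply hxx'
    rw [mem_extendScalars, hF0, coe_incl, coe_inclA]
    exact coe_mem_bar N c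
  · intro x x' hxx'
    have hg : (x.out)⁻¹ * x'.out ∈ Gamma0 N := QuotientGroup.eq.mp hxx'
    have hb' : ∀ y, tay (conjHom M y b) ≠ 0 := fun y =>
      (map_ne_zero_iff _ tay_injective).mpr ((map_ne_zero_iff _ (conjHom_injective M y)).mpr hb)
    rw [hΦ, hΦ, map_div₀, map_div₀, hφ, hφ, hφ, hφ, div_eq_div_iff (hb' _) (hb' _), ← map_mul,
      ← map_mul]
    congr 1
    have h1 := hinv _ (inv_mem hg)
    have h2 := congrArg (compHom (x.out)⁻¹) h1
    rw [map_mul, map_mul, ← compHom_mul, ← compHom_mul] at h2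
    have h3 : ((x.out)⁻¹ * x'.out)⁻¹ * (x.out)⁻¹ = (x'.out)⁻¹ := by group
    rw [h3] at h2
    show compHom _ (evA M a) * compHom _ (evA M b) = compHom _ (evA M a) * compHom _ (evA M b)
    linear_combination -h2

theorem mem_bar_of_invariant {N M : ℕ} [NeZero N] [NeZero M] (h : N ∣ M) (a b : A1 M) (hb : b ≠ 0)
    (hinv : ∀ g ∈ Gamma0 N, compHom g (evA M a) * evA M b = compHom g (evA M b) * evA M a) :
    (a : LaurentSeries Kbar) / b ∈ ModularCurve.modularFunctionFieldBar N :=
  mem_bar_of_invariant_aux (Ω := AlgebraicClosure (LaurentSeries ℂ))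
    ((algebraMap (LaurentSeries ℂ) (AlgebraicClosure (LaurentSeries ℂ))).comp
      ((HahnSeries.ofPowerSeries ℤ ℂ).comp (taylorHom UpperHalfPlane.I)))
    ((algebraMap (LaurentSeries ℂ) (AlgebraicClosure (LaurentSeries ℂ))).injective.comp
      (HahnSeries.ofPowerSeries_injective.comp (taylorHom_injective _))) h a b hb hinv

theorem exists_frac' (N : ℕ) (z : LaurentSeries Kbar)
    (hz : z ∈ ModularCurve.modularFunctionFieldBar N) :
    ∃ a b : A1 N, b ≠ 0 ∧ z = (a : LaurentSeries Kbar) / b := by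
  obtain ⟨a, b, hb, h⟩ := exists_frac N ⟨z, hz⟩
  refine ⟨a, b, hb, ?_⟩
  have h1 := congrArg (Subtype.val) h
  rw [IntermediateField.coe_div, coe_incl, coe_incl] at h1
  exact h1

/-- (LC2) in the language of S24. -/
theorem mem_bar_of_pow_mem (N r n : ℕ) [NeZero N] (hr : r.Prime) (hrN : ¬ r ∣ N) (hn : 0 < n)
    (z : LaurentSeries Kbar) (hz : z ∈ ModularCurve.modularFunctionFieldBar (N * r))
    (hzn : z ^ n ∈ ModularCurve.modularFunctionFieldBar N) :
    z ∈ ModularCurve.modularFunctionFieldBar N := by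
  have : NeZero r := ⟨hr.ne_zero⟩
  have hNM : N ∣ N * r := Dvd.intro _ rfl
  rcases eq_or_ne z 0 with rfl | hz0
  · exact zero_mem _
  obtain ⟨a, b, hb, hzab⟩ := exists_frac' (N * r) z hz
  obtain ⟨c, e, he, hzce⟩ := exists_frac' N (z ^ n) hzn
  have hb' : (b : LaurentSeries Kbar) ≠ 0 := fun h => hb (Subtype.ext h)
  have he' : (e : LaurentSeries Kbar) ≠ 0 := fun h => he (Subtype.ext h)
  have ha : a ≠ 0 := by
    rintro rfl
    apply hz0
    rw [hzab]
    simp
  have hc : c ≠ 0 := by
    rintro rfl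
    apply pow_ne_zero n hz0
    rw [hzce]
    simp
  have hrel : a ^ n * inclA hNM e = b ^ n * inclA hNM c := by
    apply Subtype.ext
    rw [Subalgebra.coe_mul, Subalgebra.coe_mul, Subalgebra.coe_pow, Subalgebra.coe_pow, coe_inclA,
      coe_inclA]
    rw [hzab, div_pow, div_eq_div_iff (pow_ne_zero n hb') he'] at hzce
    rw [hzce, mul_comm]
  have hrel' := congrArg (evA (N * r)) hrel
  rw [map_mul, map_mul, map_pow, map_pow, evA_inclA, evA_inclA] at hrel'
  rw [hzab]
  apply mem_bar_of_invariant hNM a b hb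
  exact invariant_of_pow N r n hr hrN hn _ _ _ _
    ((map_ne_zero_iff _ (evA_injective _)).mpr ha) ((map_ne_zero_iff _ (evA_injective _)).mpr hb)
    ((map_ne_zero_iff _ (evA_injective _)).mpr hc) ((map_ne_zero_iff _ (evA_injective _)).mpr he)
    hrel' (fun γ hγ => compHom_evA_of_mem_Gamma0 _ γ hγ a)
    (fun γ hγ => compHom_evA_of_mem_Gamma0 _ γ hγ b)
    (fun γ hγ => compHom_evA_of_mem_Gamma0 _ γ hγ c)
    (fun γ hγ => compHom_evA_of_mem_Gamma0 _ γ hγ e)

end Fermat.Agent.GR.D.LC
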